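import Mathlib
import Fermat.Agent.LT.H129.SplitSpec
import Fermat.Agent.LT.H129.HeckeLevel

/-!
# Row LT, tower T3, sub-leaf T3.18a.4.5.S1 `SplitOpenC129` (helper497) -- OFF-MAIN

`splitOpenC497 K : H129.SplitOpenC129 K` (VERBATIM the Prop of `LT/H129/SplitSpec.lean`):
`E₀ = outGrp K 𝔫 v₀ = {X : X_v ∈ 𝔫 𝒪_v for all finite v ≠ v₀}` is open in `𝔸_K` (`𝔫 ≠ 0`).

Proof.  Choose `0 ≠ a ∈ 𝔫`.  `Ω = {X : X_v ∈ 𝒪_v for all finite v}` is open in `𝔸_K`
(`RestrictedProduct.isOpen_forall_mem`), hence so is `X + a Ω = {Y : a⁻¹ (Y - X) ∈ Ω}`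
(multiplication by the principal adele `a⁻¹` is continuous).  For `X ∈ E₀` the set `X + a Ω` lies
in `E₀`: `𝔫 𝒪_v` is closed under addition and contains `a 𝒪_v` (`𝓞 K` is dense in `𝒪_v`:
`H129.exists_int_mem_nhds129`, helper129).  No case distinction `v ∣ 𝔫` / `v ∤ 𝔫`, no finiteness.
-/

set_option autoImplicit false

open IsDedekindDomain NumberField IsDedekindDomain.HeightOneSpectrum
open Fermat.Agent.LT.H556.A0 Fermat.Agent.LT.T3.AS Fermat.Agent.LT.T3.AS.N893
open Fermat.Agent.LT.H129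

noncomputable section

namespace Fermat.Agent.LT.T3.H497

variable {K : Type} [Field K] [NumberField K]

/-- `𝔫 𝒪_v` is closed under addition. -/
theorem add_mem_idealClosure497 (𝔫 : Ideal (𝓞 K)) (v : HeightOneSpectrum (𝓞 K))
    {x y : v.adicCompletion K} (hx : x ∈ idealClosure 𝔫 v) (hy : y ∈ idealClosure 𝔫 v) :
    x + y ∈ idealClosure 𝔫 v := by
  unfold idealClosure at *
  refine map_mem_closure₂ (f := fun a b : v.adicCompletion K => a + b) continuous_add hx hy ?_
  rintro _ ⟨a, ha, rfl⟩ _ ⟨b, hb, rfl⟩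
  exact ⟨a + b, 𝔫.add_mem ha hb, by simp only [map_add]⟩

/-- `a 𝒪_v ⊂ 𝔫 𝒪_v` for `a ∈ 𝔫`. -/
theorem mul_int_mem_idealClosure497 {𝔫 : Ideal (𝓞 K)} (v : HeightOneSpectrum (𝓞 K)) {a : 𝓞 K}
    (ha : a ∈ 𝔫) {y : v.adicCompletion K} (hy : Valued.v y ≤ 1) :
    algebraMap K (v.adicCompletion K) (algebraMap (𝓞 K) K a) * y ∈ idealClosure 𝔫 v := by
  unfold idealClosure
  rw [mem_closure_iff_nhds]
  intro t ht
  have hcont : Filter.Tendsto
      (fun z : v.adicCompletion K => algebraMap K (v.adicCompletion K) (algebraMap (𝓞 K) K a) * z)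
      (nhds y) (nhds (algebraMap K (v.adicCompletion K) (algebraMap (𝓞 K) K a) * y)) :=
    (continuous_const.mul continuous_id).tendsto y
  obtain ⟨b, hb⟩ := exists_int_mem_nhds129 v hy (hcont ht)
  refine ⟨algebraMap K (v.adicCompletion K) (algebraMap (𝓞 K) K a)
      * algebraMap K (v.adicCompletion K) (algebraMap (𝓞 K) K b), hb, a * b,
    𝔫.mul_mem_right b ha, ?_⟩
  simp only [map_mul]

/-- The adeles which are integral at every finite place form an open set. -/
theorem isOpen_intAdl497 :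
    IsOpen {X : Adl K | ∀ v : HeightOneSpectrum (𝓞 K), Valued.v (finHom K v X) ≤ 1} := by
  have h1 : IsOpen {f : FiniteAdeleRing (𝓞 K) K |
      ∀ v : HeightOneSpectrum (𝓞 K), f.1 v ∈ (v.adicCompletionIntegers K : Set _)} :=
    RestrictedProduct.isOpen_forall_mem
      (fun v => Valued.isOpen_valuationSubring (v.adicCompletion K))
  exact h1.preimage continuous_snd

/-- **T3.18a.4.5.S1 `SplitOpenC129`**, unconditional. -/
theorem splitOpenC497 (K : Type) [Field K] [NumberField K] : SplitOpenC129 K := by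
  intro 𝔫 h𝔫 v₀
  obtain ⟨a, ha, ha0⟩ : ∃ a ∈ 𝔫, a ≠ 0 := Submodule.exists_mem_ne_zero_of_ne_bot h𝔫
  have hα : algebraMap (𝓞 K) K a ≠ 0 := by
    intro h
    exact ha0 ((FaithfulSMul.algebraMap_injective (𝓞 K) K) (by rw [h, map_zero]))
  set α : K := algebraMap (𝓞 K) K a with hαdef
  rw [isOpen_iff_mem_nhds]
  intro X hX
  have hcont : Continuous (fun Y : Adl K => algebraMap K (Adl K) α⁻¹ * (Y - X)) :=
    continuous_const.mul (continuous_id.sub continuous_const)
  have hU : {Y : Adl K | ∀ v : HeightOneSpectrum (𝓞 K),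
      Valued.v (finHom K v (algebraMap K (Adl K) α⁻¹ * (Y - X))) ≤ 1} ∈ nhds X := by
    refine (isOpen_intAdl497.preimage hcont).mem_nhds ?_
    intro v
    show Valued.v (finHom K v (algebraMap K (Adl K) α⁻¹ * (X - X))) ≤ 1
    rw [sub_self, mul_zero, map_zero, map_zero]
    exact zero_le_one
  refine Filter.mem_of_superset hU ?_
  intro Y hY v hv
  have hYv := hY v
  have e0 : algebraMap K (Adl K) α * (algebraMap K (Adl K) α⁻¹ * (Y - X)) = Y - X := by
    rw [← mul_assoc, ← map_mul, mul_inv_cancel₀ hα, map_one, one_mul]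
  have e1 : finHom K v (algebraMap K (Adl K) α) = algebraMap K (v.adicCompletion K) α := rfl
  have e : finHom K v Y = finHom K v X
      + algebraMap K (v.adicCompletion K) α
        * finHom K v (algebraMap K (Adl K) α⁻¹ * (Y - X)) := by
    rw [← e1, ← map_mul, e0, map_sub]
    ring
  show finHom K v Y ∈ idealClosure 𝔫 v
  rw [e]
  exact add_mem_idealClosure497 𝔫 v (hX v hv) (mul_int_mem_idealClosure497 v ha hYv)

end Fermat.Agent.LT.T3.H497

end
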